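/-
S48 (Deligne–Serre) node (N4), group theory.  File 1: the arithmetic core of Klein's
fixed-point count:  `1/e₁ + 1/e₂ + 1/e₃ = 1 + 2/n` with no `eᵢ ≥ n/2` forces `n ≤ 60`.
Mathlib only.
-/
import Mathlib

set_option autoImplicit false

namespace Fermat.Agent.DS.N4

/-- the case `e₁ = 2`, `e₂ = 3`. -/
theorem klein_arith_23 (n e3 s1 s2 s3 : ℕ) (h1 : 2 * s1 = n) (h2 : 3 * s2 = n)
    (h3 : e3 * s3 = n) (hs : s1 + s2 + s3 = n + 2) : n ≤ 60 := by
  have h6 : 6 * s3 = n + 12 := by omega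
  have h7 : e3 * (n + 12) = 6 * n := by
    calc e3 * (n + 12) = e3 * (6 * s3) := by rw [h6]
      _ = 6 * (e3 * s3) := by ring
      _ = 6 * n := by rw [h3]
  by_contra hn
  push Not at hn
  have he : e3 ≤ 5 := by
    by_contra he
    push Not at he
    nlinarith
  nlinarith

/-- the case `e₁ = 2`. -/
theorem klein_arith_2 (n e2 e3 s1 s2 s3 : ℕ) (h1 : 2 * s1 = n) (h2 : e2 * s2 = n)
    (h3 : e3 * s3 = n) (hs : s1 + s2 + s3 = n + 2) (i2 : 2 * e2 < n) (i3 : 2 * e3 < n)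
    (he2 : 2 ≤ e2) (he3 : 2 ≤ e3) : n ≤ 60 := by
  by_cases c2 : e2 ≤ 3
  · interval_cases e2
    · exfalso
      have : s3 = 2 := by omega
      subst this
      omega
    · exact klein_arith_23 n e3 s1 s2 s3 h1 h2 h3 hs
  by_cases c3 : e3 ≤ 3
  · interval_cases e3
    · exfalso
      have : s2 = 2 := by omega
      subst this
      omega
    · exact klein_arith_23 n e2 s1 s3 s2 h1 h3 h2 (by omega)
  exfalso
  push Not at c2 c3
  have a2 : 4 * s2 ≤ n := by nlinarith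
  have a3 : 4 * s3 ≤ n := by nlinarith
  omega

/-- **Klein's arithmetic**: three orbits with stabiliser orders `eᵢ ≥ 2`, orbit sizes `sᵢ`,
`eᵢ sᵢ = n`, `s₁ + s₂ + s₃ = n + 2`, and no stabiliser of index `≤ 2`, force `n ≤ 60`. -/
theorem klein_arith (n e1 e2 e3 s1 s2 s3 : ℕ) (h1 : e1 * s1 = n) (h2 : e2 * s2 = n)
    (h3 : e3 * s3 = n) (hs : s1 + s2 + s3 = n + 2)
    (i1 : 2 * e1 < n) (i2 : 2 * e2 < n) (i3 : 2 * e3 < n)
    (he1 : 2 ≤ e1) (he2 : 2 ≤ e2) (he3 : 2 ≤ e3) : n ≤ 60 := by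
  by_cases c1 : e1 = 2
  · subst c1
    exact klein_arith_2 n e2 e3 s1 s2 s3 h1 h2 h3 hs i2 i3 he2 he3
  by_cases c2 : e2 = 2
  · subst c2
    exact klein_arith_2 n e1 e3 s2 s1 s3 h2 h1 h3 (by omega) i1 i3 he1 he3
  by_cases c3 : e3 = 2
  · subst c3
    exact klein_arith_2 n e1 e2 s3 s1 s2 h3 h1 h2 (by omega) i1 i2 he1 he2
  exfalso
  have a1 : 3 * s1 ≤ n := by
    have : 3 ≤ e1 := by omega
    nlinarith
  have a2 : 3 * s2 ≤ n := by
    have : 3 ≤ e2 := by omega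
    nlinarith
  have a3 : 3 * s3 ≤ n := by
    have : 3 ≤ e3 := by omega
    nlinarith
  omega

end Fermat.Agent.DS.N4
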