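/-
S48 (Deligne–Serre) node (N4), group theory.  File 2: Klein's fixed-point count, abstractly.
A finite group acting on a finite set such that every element outside the kernel of the action
has exactly two fixed points either has a point stabiliser of index `≤ 2` or its image in the
permutation group has order `≤ 60`.   Mathlib only.
-/
import Mathlib
import Fermat.Agent.DS.N4.KleinArith

set_option autoImplicit false

namespace Fermat.Agent.DS.N4

open MulAction

section faithful

variable {Γ X : Type*} [Group Γ] [MulAction Γ X]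

/-- **Klein's count, faithful form.**  If every non-identity element of the finite group `Γ` has
exactly two fixed points on the finite set `X`, then `|Γ| ≤ 60` or some point stabiliser has
index `≤ 2`. -/
theorem klein_faithful [Finite Γ] [Finite X]
    (h2 : ∀ g : Γ, g ≠ 1 → (fixedBy X g).ncard = 2) :
    Nat.card Γ ≤ 60 ∨ ∃ x : X, (stabilizer Γ x).index ≤ 2 := by
  classical
  have := Fintype.ofFinite Γ
  have := Fintype.ofFinite X
  by_contra hcon
  push Not at hcon
  obtain ⟨hn, hidx⟩ := hcon
  set n := Nat.card Γ with hn_def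
  have hncard : Fintype.card Γ = n := by rw [hn_def, Nat.card_eq_fintype_card]
  -- Burnside
  have hB := sum_card_fixedBy_eq_card_orbits_mul_card_group Γ X
  -- orbit sizes and stabiliser orders
  let s : orbitRel.Quotient Γ X → ℕ := fun ω => (stabilizer Γ ω.out).index
  let e : orbitRel.Quotient Γ X → ℕ := fun ω => Nat.card (stabilizer Γ ω.out)
  have hes : ∀ ω, e ω * s ω = n := fun ω => Subgroup.card_mul_index _
  have hs3 : ∀ ω, 3 ≤ s ω := fun ω => hidx ω.out
  have hcardX : Fintype.card X = ∑ ω : orbitRel.Quotient Γ X, s ω := by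
    rw [Fintype.card_congr (selfEquivSigmaOrbits Γ X), Fintype.card_sigma]
    refine Finset.sum_congr rfl fun ω _ => ?_
    simp only [s]
    rw [index_stabilizer, ← Nat.card_eq_fintype_card, Nat.card_coe_set_eq]
  -- the left side of Burnside
  have hL : ∑ g : Γ, Fintype.card (fixedBy X g) = Fintype.card X + 2 * (n - 1) := by
    rw [← Finset.add_sum_erase Finset.univ _ (Finset.mem_univ (1 : Γ))]
    congr 1
    · refine Fintype.card_congr (Equiv.subtypeUnivEquiv ?_)
      intro x
      simp
    · rw [Finset.sum_congr rfl (g := fun _ => 2)]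
      · rw [Finset.sum_const, Finset.card_erase_of_mem (Finset.mem_univ _), Finset.card_univ,
          hncard, smul_eq_mul, mul_comm]
      · intro g hg
        have hg1 : g ≠ 1 := Finset.ne_of_mem_erase hg
        rw [← Nat.card_eq_fintype_card, Nat.card_coe_set_eq]
        exact h2 g hg1
  have hB' : ∑ ω : orbitRel.Quotient Γ X, n = (∑ ω : orbitRel.Quotient Γ X, s ω) + 2 * (n - 1) := by
    rw [Finset.sum_const, Finset.card_univ, smul_eq_mul, ← hcardX, ← hL, hB, hncard]
  -- d ω = n - s ω
  have hsle : ∀ ω, s ω ≤ n := fun ω => by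
    have := hes ω
    have he1 : 1 ≤ e ω := Nat.card_pos
    nlinarith
  let d : orbitRel.Quotient Γ X → ℕ := fun ω => n - s ω
  have hds : ∀ ω, d ω + s ω = n := fun ω => Nat.sub_add_cancel (hsle ω)
  have hdsum : ∑ ω : orbitRel.Quotient Γ X, d ω = 2 * (n - 1) := by
    have : ∑ ω : orbitRel.Quotient Γ X, n = ∑ ω : orbitRel.Quotient Γ X, (d ω + s ω) :=
      Finset.sum_congr rfl fun ω _ => (hds ω).symm
    rw [Finset.sum_add_distrib] at this
    omega
  -- the orbits with non-trivial stabiliser
  set O : Finset (orbitRel.Quotient Γ X) := Finset.univ.filter fun ω => s ω < n with hO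
  have hdO : ∑ ω ∈ O, d ω = 2 * (n - 1) := by
    rw [← hdsum, hO, Finset.sum_filter_of_ne]
    intro ω _ hd
    have := hds ω
    have := hsle ω
    by_contra hlt
    apply hd
    simp only [d]
    omega
  have hO2 : ∀ ω ∈ O, 2 ≤ e ω ∧ 2 * e ω < n ∧ n ≤ 2 * d ω ∧ d ω + 3 ≤ n := by
    intro ω hω
    have hlt : s ω < n := (Finset.mem_filter.mp hω).2
    have h1 := hes ω
    have h3 := hs3 ω
    have h4 := hds ω
    have he2 : 2 ≤ e ω := by
      by_contra hlt2
      have : e ω ≤ 1 := by omega
      have he1 : 1 ≤ e ω := Nat.card_pos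
      have : e ω = 1 := by omega
      rw [this, one_mul] at h1
      omega
    refine ⟨he2, ?_, ?_, ?_⟩
    · nlinarith
    · have : 2 * s ω ≤ n := by nlinarith
      omega
    · omega
  have hcard_lt : O.card < 4 := by
    by_contra h4
    push Not at h4
    have h1 : O.card • n ≤ ∑ ω ∈ O, 2 * d ω :=
      Finset.card_nsmul_le_sum O _ n fun ω hω => (hO2 ω hω).2.2.1
    rw [← Finset.mul_sum, hdO, smul_eq_mul] at h1
    have : 4 * n ≤ O.card * n := Nat.mul_le_mul_right n h4
    omega
  have hcard_ge : 3 ≤ O.card := by
    by_contra h3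
    push Not at h3
    have h1 : ∑ ω ∈ O, d ω ≤ O.card • (n - 3) :=
      Finset.sum_le_card_nsmul O _ (n - 3) fun ω hω => by
        have := (hO2 ω hω).2.2.2
        omega
    rw [hdO, smul_eq_mul] at h1
    have : O.card * (n - 3) ≤ 2 * (n - 3) := Nat.mul_le_mul_right _ (by omega)
    omega
  have hcard3 : O.card = 3 := by omega
  obtain ⟨a, b, c, hab, hac, hbc, hOabc⟩ := Finset.card_eq_three.mp hcard3
  have ha : a ∈ O := by rw [hOabc]; simp
  have hb : b ∈ O := by rw [hOabc]; simp
  have hc : c ∈ O := by rw [hOabc]; simp
  have hsum3 : d a + d b + d c = 2 * (n - 1) := by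
    rw [← hdO, hOabc, Finset.sum_insert (by simp [hab, hac]), Finset.sum_insert (by simp [hbc]),
      Finset.sum_singleton]
    ring
  have hssum : s a + s b + s c = n + 2 := by
    have := hds a
    have := hds b
    have := hds c
    have := (hO2 a ha).2.2.2
    omega
  have := klein_arith n (e a) (e b) (e c) (s a) (s b) (s c) (hes a) (hes b) (hes c) hssum
    (hO2 a ha).2.1 (hO2 b hb).2.1 (hO2 c hc).2.1 (hO2 a ha).1 (hO2 b hb).1 (hO2 c hc).1
  omega

end faithful

end Fermat.Agent.DS.N4

namespace Fermat.Agent.DS.N4

open MulAction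

section general

variable {G X : Type*} [Group G] [MulAction G X]

/-- **Klein's count, general form.**  If every element of the finite group `G` that moves some
point of the finite set `X` has exactly two fixed points, then the kernel of the action has
index `≤ 60` or some point stabiliser has index `≤ 2`. -/
theorem klein_general [Finite G] [Finite X]
    (h2 : ∀ g : G, (∃ x : X, g • x ≠ x) → (fixedBy X g).ncard = 2) :
    (MulAction.toPermHom G X).ker.index ≤ 60 ∨ ∃ x : X, (stabilizer G x).index ≤ 2 := by
  classical
  set φ : G →* (MulAction.toPermHom G X).range := (MulAction.toPermHom G X).rangeRestrict with hφ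
  have hφs : Function.Surjective φ := (MulAction.toPermHom G X).rangeRestrict_surjective
  have hsmul : ∀ (g : G) (x : X), φ g • x = g • x := fun g x => rfl
  have hfix : ∀ g : G, fixedBy X (φ g) = fixedBy X g := by
    intro g
    ext x
    simp only [mem_fixedBy, hsmul]
  have h2' : ∀ γ : (MulAction.toPermHom G X).range, γ ≠ 1 → (fixedBy X γ).ncard = 2 := by
    intro γ hγ
    obtain ⟨g, rfl⟩ := hφs γ
    rw [hfix]
    apply h2
    by_contra hall
    push Not at hall
    apply hγ
    apply Subtype.ext
    apply Equiv.ext
    intro x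
    exact hall x
  rcases klein_faithful h2' with h | ⟨x, hx⟩
  · left
    rw [Subgroup.index_ker]
    exact h
  · right
    refine ⟨x, ?_⟩
    have hcomap : stabilizer G x = (stabilizer (MulAction.toPermHom G X).range x).comap φ := by
      ext g
      simp only [mem_stabilizer_iff, Subgroup.mem_comap, hsmul]
    rw [hcomap, Subgroup.index_comap_of_surjective _ hφs]
    exact hx

end general

end Fermat.Agent.DS.N4
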