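/-
S48 (Deligne–Serre) node (N4), group theory.  File 3: elementary 2×2 linear algebra over a field
(determinant of two vectors, Cayley–Hamilton, the rank-one identity, unipotent powers,
eigenvectors from roots of the characteristic polynomial).   Mathlib only.
-/
import Mathlib

set_option autoImplicit false

namespace Fermat.Agent.DS.N4

open Matrix Polynomial

variable {K : Type*} [Field K]

/-- the determinant of two plane vectors. -/
def det2 (v w : Fin 2 → K) : K := v 0 * w 1 - v 1 * w 0

theorem det2_smul_right (v : Fin 2 → K) (c : K) : det2 v (c • v) = 0 := by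
  simp only [det2, Pi.smul_apply, smul_eq_mul]; ring

theorem ne_zero_of_det2_ne_zero_left {v w : Fin 2 → K} (h : det2 v w ≠ 0) : v ≠ 0 := by
  rintro rfl; apply h; simp [det2]

theorem ne_zero_of_det2_ne_zero_right {v w : Fin 2 → K} (h : det2 v w ≠ 0) : w ≠ 0 := by
  rintro rfl; apply h; simp [det2]

theorem vec2_ne_zero {v : Fin 2 → K} (hv : v ≠ 0) : v 0 ≠ 0 ∨ v 1 ≠ 0 := by
  by_contra h
  push Not at h
  apply hv
  ext i
  fin_cases i
  · exact h.1
  · exact h.2

/-- two plane vectors with vanishing determinant are proportional. -/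
theorem exists_smul_of_det2_eq_zero {v w : Fin 2 → K} (hv : v ≠ 0) (h : det2 v w = 0) :
    ∃ c : K, w = c • v := by
  simp only [det2] at h
  rcases vec2_ne_zero hv with h0 | h1
  · refine ⟨w 0 / v 0, ?_⟩
    ext i
    fin_cases i
    · simp only [Fin.zero_eta, Pi.smul_apply, smul_eq_mul]; field_simp
    · simp only [Fin.mk_one, Pi.smul_apply, smul_eq_mul]
      field_simp
      linear_combination h
  · refine ⟨w 1 / v 1, ?_⟩
    ext i
    fin_cases i
    · simp only [Fin.zero_eta, Pi.smul_apply, smul_eq_mul]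
      field_simp
      linear_combination -h
    · simp only [Fin.mk_one, Pi.smul_apply, smul_eq_mul]; field_simp

theorem mulVec_fin_two (M : Matrix (Fin 2) (Fin 2) K) (v : Fin 2 → K) :
    M *ᵥ v = ![M 0 0 * v 0 + M 0 1 * v 1, M 1 0 * v 0 + M 1 1 * v 1] := by
  ext i
  fin_cases i <;> simp [Matrix.mulVec, dotProduct, Fin.sum_univ_two]

/-- a matrix acting as the same scalar on two independent vectors is that scalar. -/
theorem eq_smul_one_of_two_eigvec {M : Matrix (Fin 2) (Fin 2) K} {v w : Fin 2 → K} {c : K}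
    (h : det2 v w ≠ 0) (hv : M *ᵥ v = c • v) (hw : M *ᵥ w = c • w) :
    M = c • (1 : Matrix (Fin 2) (Fin 2) K) := by
  rw [mulVec_fin_two] at hv hw
  have hv0 := congrFun hv 0
  have hv1 := congrFun hv 1
  have hw0 := congrFun hw 0
  have hw1 := congrFun hw 1
  simp only [Matrix.cons_val_zero, Matrix.cons_val_one, Pi.smul_apply, smul_eq_mul] at hv0 hv1 hw0 hw1
  simp only [det2] at h
  ext i j
  fin_cases i <;> fin_cases j
  · simp only [Fin.zero_eta, Matrix.smul_apply, Matrix.one_apply_eq, smul_eq_mul, mul_one]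
    apply mul_right_cancel₀ h
    linear_combination (w 1) * hv0 - (v 1) * hw0
  · simp only [Fin.zero_eta, Fin.mk_one, Matrix.smul_apply, smul_eq_mul]
    rw [Matrix.one_apply_ne (by decide), mul_zero]
    apply mul_right_cancel₀ h
    linear_combination (v 0) * hw0 - (w 0) * hv0
  · simp only [Fin.zero_eta, Fin.mk_one, Matrix.smul_apply, smul_eq_mul]
    rw [Matrix.one_apply_ne (by decide), mul_zero]
    apply mul_right_cancel₀ h
    linear_combination (w 1) * hv1 - (v 1) * hw1
  · simp only [Fin.mk_one, Matrix.smul_apply, Matrix.one_apply_eq, smul_eq_mul, mul_one]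
    apply mul_right_cancel₀ h
    linear_combination (v 0) * hw1 - (w 0) * hv1

/-- coefficients with respect to two independent vectors are unique. -/
theorem coeff_eq_of_det2_ne_zero {v w : Fin 2 → K} {a b a' b' : K} (h : det2 v w ≠ 0)
    (heq : a • v + b • w = a' • v + b' • w) : a = a' ∧ b = b' := by
  have h0 := congrFun heq 0
  have h1 := congrFun heq 1
  simp only [Pi.add_apply, Pi.smul_apply, smul_eq_mul] at h0 h1
  simp only [det2] at h
  constructor
  · apply mul_right_cancel₀ h
    linear_combination (w 1) * h0 - (w 0) * h1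
  · apply mul_right_cancel₀ h
    linear_combination (v 0) * h1 - (v 1) * h0

/-- **Cayley–Hamilton** for 2×2 matrices, in explicit form. -/
theorem sq_eq_trace_smul_sub (M : Matrix (Fin 2) (Fin 2) K) :
    M * M = M.trace • M - M.det • (1 : Matrix (Fin 2) (Fin 2) K) := by
  ext i j
  fin_cases i <;> fin_cases j <;>
    simp [Matrix.mul_apply, Fin.sum_univ_two, Matrix.trace_fin_two, Matrix.det_fin_two] <;> ring

/-- the rank-one identity `N g N = tr(N g) N` for a singular 2×2 matrix `N`. -/
theorem mul_mul_eq_trace_smul {N : Matrix (Fin 2) (Fin 2) K} (hN : N.det = 0)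
    (g : Matrix (Fin 2) (Fin 2) K) : N * g * N = (N * g).trace • N := by
  rw [Matrix.det_fin_two] at hN
  ext i j
  fin_cases i <;> fin_cases j <;>
    simp [Matrix.mul_apply, Fin.sum_univ_two, Matrix.trace_fin_two]
  · linear_combination (-(g 1 1)) * hN
  · linear_combination (g 0 1) * hN
  · linear_combination (g 1 0) * hN
  · linear_combination (-(g 0 0)) * hN

/-- powers of `c + N` with `N² = 0`. -/
theorem smul_one_add_pow_succ {N : Matrix (Fin 2) (Fin 2) K} (hN : N * N = 0) (c : K) (m : ℕ) :
    (c • (1 : Matrix (Fin 2) (Fin 2) K) + N) ^ (m + 1) =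
      c ^ (m + 1) • (1 : Matrix (Fin 2) (Fin 2) K) + (((m : K) + 1) * c ^ m) • N := by
  induction m with
  | zero => simp
  | succ m ih =>
    rw [pow_succ, ih]
    simp only [add_mul, mul_add, Matrix.smul_mul, Matrix.mul_smul, Matrix.one_mul, Matrix.mul_one,
      hN, smul_zero, add_zero, smul_smul]
    push_cast
    rw [add_assoc, ← add_smul]
    congr 1
    · congr 1; ring
    · congr 1; ring

theorem one_add_pow_of_sq_zero {N : Matrix (Fin 2) (Fin 2) K} (hN : N * N = 0) (m : ℕ) :
    ((1 : Matrix (Fin 2) (Fin 2) K) + N) ^ m = 1 + (m : K) • N := by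
  cases m with
  | zero => simp
  | succ m =>
    have := smul_one_add_pow_succ hN 1 m
    simp only [one_smul, one_pow, mul_one] at this
    rw [this]
    push_cast
    rfl

/-- a square-zero 2×2 matrix has determinant `0`. -/
theorem det_eq_zero_of_sq_zero {N : Matrix (Fin 2) (Fin 2) K} (hN : N * N = 0) : N.det = 0 := by
  have : (N * N).det = 0 := by rw [hN]; simp
  rw [Matrix.det_mul] at this
  exact mul_self_eq_zero.mp this

/-- a square-zero 2×2 matrix has trace `0`. -/
theorem trace_eq_zero_of_sq_zero {N : Matrix (Fin 2) (Fin 2) K} (hN : N * N = 0) :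
    N.trace = 0 := by
  have h := sq_eq_trace_smul_sub N
  rw [hN, det_eq_zero_of_sq_zero hN, zero_smul, sub_zero] at h
  by_cases hN0 : N = 0
  · rw [hN0]; simp
  · rcases smul_eq_zero.mp h.symm with h | h
    · exact h
    · exact absurd h hN0

/-- a nilpotent 2×2 matrix over a field has square zero. -/
theorem sq_zero_of_pow_eq_zero {N : Matrix (Fin 2) (Fin 2) K} {m : ℕ} (hN : N ^ m = 0) :
    N * N = 0 := by
  have hdet : N.det = 0 := by
    have : (N ^ m).det = 0 := by
      rw [hN]; simp
    rw [Matrix.det_pow] at this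
    exact pow_eq_zero_iff (by
      rintro rfl
      simp at this) |>.mp this
  have hsq : N * N = N.trace • N := by
    rw [sq_eq_trace_smul_sub, hdet, zero_smul, sub_zero]
  have hpow : ∀ j : ℕ, N ^ (j + 1) = N.trace ^ j • N := by
    intro j
    induction j with
    | zero => simp
    | succ j ih =>
      rw [pow_succ, ih, Matrix.smul_mul, hsq, smul_smul, pow_succ]
  cases m with
  | zero =>
    exfalso
    rw [pow_zero] at hN
    exact one_ne_zero hN
  | succ j =>
    rw [hpow] at hN
    rcases smul_eq_zero.mp hN with h | h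
    · have : N.trace = 0 := by
        by_cases hj : j = 0
        · subst hj
          exfalso
          simp at h
        · exact (pow_eq_zero_iff hj).mp h
      rw [hsq, this, zero_smul]
    · rw [h]; simp

/-- `det (c + N) = c²` when `N² = 0`. -/
theorem det_smul_one_add_of_sq_zero {N : Matrix (Fin 2) (Fin 2) K} (hN : N * N = 0) (c : K) :
    (c • (1 : Matrix (Fin 2) (Fin 2) K) + N).det = c ^ 2 := by
  have h1 := det_eq_zero_of_sq_zero hN
  have h2 := trace_eq_zero_of_sq_zero hN
  rw [Matrix.det_fin_two] at h1 ⊢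
  rw [Matrix.trace_fin_two] at h2
  simp only [Matrix.add_apply, Matrix.smul_apply, Matrix.one_apply_eq, smul_eq_mul, mul_one]
  rw [Matrix.one_apply_ne (show (0 : Fin 2) ≠ 1 by decide),
    Matrix.one_apply_ne (show (1 : Fin 2) ≠ 0 by decide)]
  linear_combination h1 + c * h2

/-- `c + N` with `N² = 0` of finite order prime to the characteristic is the scalar `c`. -/
theorem eq_zero_of_sq_zero_of_pow_eq_one {N : Matrix (Fin 2) (Fin 2) K} (hN : N * N = 0) {c : K}
    {m : ℕ} (hm : (m : K) ≠ 0)
    (hpow : (c • (1 : Matrix (Fin 2) (Fin 2) K) + N) ^ m = 1) : N = 0 := by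
  -- c ≠ 0
  have hc : c ≠ 0 := by
    rintro rfl
    have hdet1 : (((0 : K) • (1 : Matrix (Fin 2) (Fin 2) K) + N) ^ m).det = 1 := by
      rw [hpow]; simp
    rw [Matrix.det_pow, det_smul_one_add_of_sq_zero hN] at hdet1
    have hm0 : m ≠ 0 := by
      rintro rfl
      simp at hm
    rw [zero_pow (by norm_num), zero_pow hm0] at hdet1
    exact zero_ne_one hdet1
  cases m with
  | zero => simp at hm
  | succ j =>
    rw [smul_one_add_pow_succ hN] at hpow
    have hm' : ((j : K) + 1) ≠ 0 := by
      rw [Nat.cast_succ] at hm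
      exact hm
    have hcoef : ((j : K) + 1) * c ^ j ≠ 0 := mul_ne_zero hm' (pow_ne_zero _ hc)
    -- N is a scalar matrix
    have h1 : (((j : K) + 1) * c ^ j) • N =
        (1 - c ^ (j + 1)) • (1 : Matrix (Fin 2) (Fin 2) K) := by
      rw [sub_smul, one_smul, eq_sub_iff_add_eq, add_comm]
      exact hpow
    have hN1 : N = ((((j : K) + 1) * c ^ j)⁻¹ * (1 - c ^ (j + 1))) •
        (1 : Matrix (Fin 2) (Fin 2) K) := by
      rw [mul_smul, ← h1, smul_smul, inv_mul_cancel₀ hcoef, one_smul]
    set t := (((j : K) + 1) * c ^ j)⁻¹ * (1 - c ^ (j + 1)) with ht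
    have hsq := hN
    rw [hN1] at hsq
    simp only [Matrix.smul_mul, Matrix.mul_smul, Matrix.one_mul, smul_smul] at hsq
    have := congrFun (congrFun hsq 0) 0
    simp only [Matrix.smul_apply, Matrix.one_apply_eq, smul_eq_mul, mul_one,
      Matrix.zero_apply] at this
    have ht0 : t = 0 := mul_self_eq_zero.mp this
    rw [hN1, ht0, zero_smul]

/-! ### eigenvectors and roots of the characteristic polynomial -/

theorem exists_eigvec_of_isRoot {M : Matrix (Fin 2) (Fin 2) K} {c : K}
    (hc : M.charpoly.IsRoot c) : ∃ v : Fin 2 → K, v ≠ 0 ∧ M *ᵥ v = c • v := by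
  rw [Polynomial.IsRoot, Matrix.eval_charpoly] at hc
  obtain ⟨v, hv0, hv⟩ := Matrix.exists_mulVec_eq_zero_iff.mpr hc
  refine ⟨v, hv0, ?_⟩
  rw [Matrix.sub_mulVec] at hv
  have : (Matrix.scalar (Fin 2)) c *ᵥ v = c • v := by
    ext i
    simp [Matrix.scalar_apply, Matrix.mulVec, dotProduct, Matrix.diagonal_apply]
  rw [this] at hv
  exact (sub_eq_zero.mp hv).symm

theorem isRoot_of_eigvec {M : Matrix (Fin 2) (Fin 2) K} {c : K} {v : Fin 2 → K} (hv0 : v ≠ 0)
    (hv : M *ᵥ v = c • v) : M.charpoly.IsRoot c := by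
  rw [Polynomial.IsRoot, Matrix.eval_charpoly]
  apply Matrix.exists_mulVec_eq_zero_iff.mp
  refine ⟨v, hv0, ?_⟩
  rw [Matrix.sub_mulVec]
  have : (Matrix.scalar (Fin 2)) c *ᵥ v = c • v := by
    ext i
    simp [Matrix.scalar_apply, Matrix.mulVec, dotProduct, Matrix.diagonal_apply]
  rw [this, hv, sub_self]

theorem isRoot_charpoly_fin_two_iff (M : Matrix (Fin 2) (Fin 2) K) (e : K) :
    M.charpoly.IsRoot e ↔ e ^ 2 - M.trace * e + M.det = 0 := by
  rw [Polynomial.IsRoot, Matrix.charpoly_fin_two]
  simp

/-- if `c` is a root of the characteristic polynomial, so is `tr M - c`, and these are all. -/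
theorem isRoot_charpoly_iff_of_isRoot {M : Matrix (Fin 2) (Fin 2) K} {c : K}
    (hc : M.charpoly.IsRoot c) (e : K) :
    M.charpoly.IsRoot e ↔ e = c ∨ e = M.trace - c := by
  rw [isRoot_charpoly_fin_two_iff] at hc ⊢
  have : e ^ 2 - M.trace * e + M.det = (e - c) * (e - (M.trace - c)) := by
    linear_combination hc
  rw [this, mul_eq_zero, sub_eq_zero, sub_eq_zero]

/-- a double root forces `(M - c)² = 0`. -/
theorem sub_smul_one_sq_zero_of_double_root {M : Matrix (Fin 2) (Fin 2) K} {c : K}
    (hc : M.charpoly.IsRoot c) (hd : M.trace - c = c) :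
    (M - c • (1 : Matrix (Fin 2) (Fin 2) K)) * (M - c • (1 : Matrix (Fin 2) (Fin 2) K)) = 0 := by
  rw [isRoot_charpoly_fin_two_iff] at hc
  have htr : M.trace = 2 * c := by linear_combination hd
  have hdet : M.det = c ^ 2 := by
    rw [htr] at hc
    linear_combination hc
  simp only [sub_mul, mul_sub, Matrix.smul_mul, Matrix.mul_smul, Matrix.one_mul, Matrix.mul_one,
    smul_smul]
  rw [sq_eq_trace_smul_sub, htr, hdet]
  ext i j
  fin_cases i <;> fin_cases j <;> simp <;> ring

end Fermat.Agent.DS.N4
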