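/-
S48 (Deligne–Serre) node (N4), group theory.  File 4: the action of `GL₂(k)` on the projective
line: an element of finite order prime to the characteristic, non-scalar, with an eigenvalue
in `k`, has exactly two fixed points; elements acting trivially are scalar; fibres of the
characteristic polynomial on a line stabiliser and on a scalar coset have at most 2 elements.
Mathlib only.
-/
import Mathlib
import Fermat.Agent.DS.N4.Lin2

set_option autoImplicit false

namespace Fermat.Agent.DS.N4

open Matrix Polynomial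
open scoped LinearAlgebra.Projectivization

variable {k : Type*} [Field k]

theorem GL_smul_vec (g : GL (Fin 2) k) (v : Fin 2 → k) : g • v = g.1 *ᵥ v := rfl

/-- fixed-point criterion on the projective line. -/
theorem smul_mk_eq_iff (g : GL (Fin 2) k) {v : Fin 2 → k} (hv : v ≠ 0) :
    g • Projectivization.mk k v hv = Projectivization.mk k v hv ↔
      ∃ e : k, g.1 *ᵥ v = e • v := by
  rw [Projectivization.smul_mk, Projectivization.mk_eq_mk_iff']
  constructor
  · rintro ⟨a, ha⟩
    exact ⟨a, ha.symm⟩
  · rintro ⟨e, he⟩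
    exact ⟨e, he.symm⟩

/-- scalar matrices act trivially. -/
theorem smul_eq_self_of_scalar (g : GL (Fin 2) k) {c : k}
    (h : g.1 = c • (1 : Matrix (Fin 2) (Fin 2) k)) (x : ℙ k (Fin 2 → k)) : g • x = x := by
  induction x using Projectivization.ind with
  | h v hv =>
    rw [smul_mk_eq_iff]
    refine ⟨c, ?_⟩
    rw [h, Matrix.smul_mulVec, Matrix.one_mulVec]

/-- a matrix fixing every point of the projective line is scalar. -/
theorem scalar_of_forall_smul_eq (g : GL (Fin 2) k)
    (h : ∀ x : ℙ k (Fin 2 → k), g • x = x) :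
    ∃ c : k, g.1 = c • (1 : Matrix (Fin 2) (Fin 2) k) := by
  have e1 : (![1, 0] : Fin 2 → k) ≠ 0 := by
    intro h0
    have := congrFun h0 0
    simp at this
  have e2 : (![0, 1] : Fin 2 → k) ≠ 0 := by
    intro h0
    have := congrFun h0 1
    simp at this
  have e3 : (![1, 1] : Fin 2 → k) ≠ 0 := by
    intro h0
    have := congrFun h0 0
    simp at this
  obtain ⟨a, ha⟩ := (smul_mk_eq_iff g e1).mp (h _)
  obtain ⟨b, hb⟩ := (smul_mk_eq_iff g e2).mp (h _)
  obtain ⟨c, hc⟩ := (smul_mk_eq_iff g e3).mp (h _)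
  rw [mulVec_fin_two] at ha hb hc
  have ha0 := congrFun ha 0
  have ha1 := congrFun ha 1
  have hb0 := congrFun hb 0
  have hb1 := congrFun hb 1
  have hc0 := congrFun hc 0
  have hc1 := congrFun hc 1
  simp only [Matrix.cons_val_zero, Matrix.cons_val_one, Pi.smul_apply, smul_eq_mul, mul_one,
    mul_zero, add_zero, zero_add] at ha0 ha1 hb0 hb1 hc0 hc1
  refine ⟨a, ?_⟩
  ext i j
  fin_cases i <;> fin_cases j
  · simp only [Fin.zero_eta, Matrix.smul_apply, Matrix.one_apply_eq, smul_eq_mul, mul_one]
    exact ha0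
  · simp only [Fin.zero_eta, Fin.mk_one, Matrix.smul_apply, smul_eq_mul]
    rw [Matrix.one_apply_ne (by decide), mul_zero]
    exact hb0
  · simp only [Fin.zero_eta, Fin.mk_one, Matrix.smul_apply, smul_eq_mul]
    rw [Matrix.one_apply_ne (by decide), mul_zero]
    exact ha1
  · simp only [Fin.mk_one, Matrix.smul_apply, Matrix.one_apply_eq, smul_eq_mul, mul_one]
    rw [hb1, ← ha0]
    have : c = a := by rw [← hc0, ha0, hb0, add_zero]
    have : c = b := by rw [← hc1, ha1, hb1, zero_add]
    simp_all

/-- a non-scalar element of finite order prime to the characteristic with an eigenvalue in `k`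
has two distinct eigenvalues. -/
theorem other_root_ne {g : GL (Fin 2) k} {m : ℕ} (hm : (m : k) ≠ 0) (hpow : g ^ m = 1)
    (hns : ∀ c : k, g.1 ≠ c • (1 : Matrix (Fin 2) (Fin 2) k)) {c : k}
    (hc : g.1.charpoly.IsRoot c) : g.1.trace - c ≠ c := by
  intro hd
  have hsq := sub_smul_one_sq_zero_of_double_root hc hd
  have hg : c • (1 : Matrix (Fin 2) (Fin 2) k) + (g.1 - c • (1 : Matrix (Fin 2) (Fin 2) k)) = g.1 := by
    abel
  have hpow' : (c • (1 : Matrix (Fin 2) (Fin 2) k) + (g.1 - c • (1 : Matrix (Fin 2) (Fin 2) k))) ^ m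
      = 1 := by
    rw [hg]
    have := congrArg (fun u : GL (Fin 2) k => (u : Matrix (Fin 2) (Fin 2) k)) hpow
    simpa using this
  have := eq_zero_of_sq_zero_of_pow_eq_one hsq hm hpow'
  exact hns c (sub_eq_zero.mp this)

/-- **two fixed points**: a non-scalar element of finite order prime to the characteristic, with an
eigenvalue in `k`, has exactly two fixed points on the projective line over `k`. -/
theorem fixedBy_ncard_eq_two {g : GL (Fin 2) k} {m : ℕ} (hm : (m : k) ≠ 0) (hpow : g ^ m = 1)
    (hns : ∀ c : k, g.1 ≠ c • (1 : Matrix (Fin 2) (Fin 2) k))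
    (hroot : ∃ c : k, g.1.charpoly.IsRoot c) :
    (MulAction.fixedBy (ℙ k (Fin 2 → k)) g).ncard = 2 := by
  obtain ⟨c, hc⟩ := hroot
  set d := g.1.trace - c with hd
  have hdc : d ≠ c := other_root_ne hm hpow hns hc
  have hdroot : g.1.charpoly.IsRoot d := (isRoot_charpoly_iff_of_isRoot hc d).mpr (Or.inr rfl)
  obtain ⟨vc, hvc0, hvc⟩ := exists_eigvec_of_isRoot hc
  obtain ⟨vd, hvd0, hvd⟩ := exists_eigvec_of_isRoot hdroot
  have hdet : det2 vc vd ≠ 0 := by
    intro h0
    obtain ⟨a, ha⟩ := exists_smul_of_det2_eq_zero hvc0 h0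
    have h1 : g.1 *ᵥ vd = c • vd := by
      rw [ha, Matrix.mulVec_smul, hvc, smul_comm]
    rw [hvd] at h1
    have h2 : (d - c) • vd = 0 := by rw [sub_smul, h1, sub_self]
    rcases smul_eq_zero.mp h2 with h | h
    · exact hdc (sub_eq_zero.mp h)
    · exact hvd0 h
  have hne : Projectivization.mk k vc hvc0 ≠ Projectivization.mk k vd hvd0 := by
    intro heq
    obtain ⟨a, ha⟩ := (Projectivization.mk_eq_mk_iff' k _ _ hvc0 hvd0).mp heq
    apply hdet
    rw [← ha]
    simp only [det2, Pi.smul_apply, smul_eq_mul]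
    ring
  have hfix : MulAction.fixedBy (ℙ k (Fin 2 → k)) g =
      {Projectivization.mk k vc hvc0, Projectivization.mk k vd hvd0} := by
    ext x
    simp only [MulAction.mem_fixedBy, Set.mem_insert_iff, Set.mem_singleton_iff]
    constructor
    · induction x using Projectivization.ind with
      | h w hw =>
        intro hx
        obtain ⟨e, he⟩ := (smul_mk_eq_iff g hw).mp hx
        have heroot := isRoot_of_eigvec hw he
        rcases (isRoot_charpoly_iff_of_isRoot hc e).mp heroot with rfl | rfl
        · left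
          have h0 : det2 vc w = 0 := by
            by_contra hne0
            exact hns e (eq_smul_one_of_two_eigvec hne0 hvc he)
          obtain ⟨a, ha⟩ := exists_smul_of_det2_eq_zero hvc0 h0
          exact (Projectivization.mk_eq_mk_iff' k _ _ hw hvc0).mpr ⟨a, ha.symm⟩
        · right
          have h0 : det2 vd w = 0 := by
            by_contra hne0
            exact hns _ (eq_smul_one_of_two_eigvec hne0 hvd he)
          obtain ⟨a, ha⟩ := exists_smul_of_det2_eq_zero hvd0 h0
          exact (Projectivization.mk_eq_mk_iff' k _ _ hw hvd0).mpr ⟨a, ha.symm⟩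
    · rintro (rfl | rfl)
      · exact (smul_mk_eq_iff g hvc0).mpr ⟨c, hvc⟩
      · exact (smul_mk_eq_iff g hvd0).mpr ⟨d, hvd⟩
  rw [hfix, Set.ncard_pair hne]

/-! ### fibres of the characteristic polynomial -/

theorem charpoly_fin_two_eq_iff (M M' : Matrix (Fin 2) (Fin 2) k) :
    M.charpoly = M'.charpoly ↔ M.trace = M'.trace ∧ M.det = M'.det := by
  constructor
  · intro h
    rw [Matrix.charpoly_fin_two, Matrix.charpoly_fin_two] at h
    have h0 := congrArg (fun p => p.coeff 0) h
    have h1 := congrArg (fun p => p.coeff 1) h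
    simp only [coeff_add, coeff_sub, coeff_X_pow, coeff_C_mul, coeff_X_zero, coeff_C_zero,
      coeff_X_one, mul_zero, mul_one] at h0 h1
    norm_num at h0 h1
    refine ⟨?_, h0⟩
    simpa [coeff_C] using h1
  · rintro ⟨h1, h2⟩
    rw [Matrix.charpoly_fin_two, Matrix.charpoly_fin_two, h1, h2]

/-- an element of finite order prime to the characteristic that fixes a nonzero vector and has
determinant one is the identity. -/
theorem eq_one_of_fix_of_det_one {g : GL (Fin 2) k} {m : ℕ} (hm : (m : k) ≠ 0) (hpow : g ^ m = 1)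
    {v : Fin 2 → k} (hv0 : v ≠ 0) (hv : g.1 *ᵥ v = v) (hdet : g.1.det = 1) : g = 1 := by
  have hroot : g.1.charpoly.IsRoot 1 := isRoot_of_eigvec hv0 (by rw [hv, one_smul])
  have htr : g.1.trace = 2 := by
    have := (isRoot_charpoly_fin_two_iff g.1 1).mp hroot
    rw [hdet] at this
    linear_combination -this
  by_contra hg1
  have hns : ∀ c : k, g.1 ≠ c • (1 : Matrix (Fin 2) (Fin 2) k) := by
    intro c hc
    have h1 : g.1 *ᵥ v = c • v := by rw [hc, Matrix.smul_mulVec, Matrix.one_mulVec]
    rw [hv] at h1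
    have h2 : (1 - c) • v = 0 := by rw [sub_smul, one_smul, ← h1, sub_self]
    rcases smul_eq_zero.mp h2 with h | h
    · have hc1 : c = 1 := (sub_eq_zero.mp h).symm
      apply hg1
      apply Units.ext
      rw [hc, hc1, one_smul]
      rfl
    · exact hv0 h
  have := other_root_ne hm hpow hns hroot
  apply this
  rw [htr]
  norm_num

/-- on the stabiliser of a line, a fibre of the characteristic polynomial has at most two
elements (all elements being of finite order prime to the characteristic). -/
theorem ncard_charpoly_fibre_lineStab_le_two [Finite k] (G : Subgroup (GL (Fin 2) k)) {m : ℕ}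
    (hm : (m : k) ≠ 0) (hpow : ∀ g ∈ G, g ^ m = 1) {v : Fin 2 → k} (hv0 : v ≠ 0) (P : k[X]) :
    {g : GL (Fin 2) k | g ∈ G ∧ (∃ e : k, g.1 *ᵥ v = e • v) ∧ g.1.charpoly = P}.ncard ≤ 2 := by
  classical
  set S := {g : GL (Fin 2) k | g ∈ G ∧ (∃ e : k, g.1 *ᵥ v = e • v) ∧ g.1.charpoly = P} with hS
  by_cases hSe : S = ∅
  · rw [hSe]; simp
  obtain ⟨g0, hg0⟩ := Set.nonempty_iff_ne_empty.mpr hSe
  have hP : P = g0.1.charpoly := hg0.2.2.symm
  let ev : GL (Fin 2) k → k := fun g => if h : ∃ e : k, g.1 *ᵥ v = e • v then h.choose else 0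
  have hev : ∀ g ∈ S, g.1 *ᵥ v = ev g • v := by
    intro g hg
    simp only [ev, dif_pos hg.2.1]
    exact hg.2.1.choose_spec
  have hmaps : ∀ g ∈ S, ev g ∈ (P.roots.toFinset : Set k) := by
    intro g hg
    have hr : g.1.charpoly.IsRoot (ev g) := isRoot_of_eigvec hv0 (hev g hg)
    rw [hg.2.2] at hr
    simp only [Finset.mem_coe, Multiset.mem_toFinset]
    rw [Polynomial.mem_roots']
    refine ⟨?_, hr⟩
    rw [hP]
    exact (Matrix.charpoly_monic _).ne_zero
  have hinj : Set.InjOn ev S := by
    intro g hg h hh hgh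
    have h1 := hev g hg
    have h2 := hev h hh
    rw [← hgh] at h2
    -- g⁻¹ h fixes v and has determinant one
    have hcp : g.1.charpoly = h.1.charpoly := by rw [hg.2.2, hh.2.2]
    have hdet : g.1.det = h.1.det := ((charpoly_fin_two_eq_iff _ _).mp hcp).2
    have hfix : (g⁻¹ * h).1 *ᵥ v = v := by
      have : (g⁻¹ * h).1 *ᵥ v = (g⁻¹).1 *ᵥ (h.1 *ᵥ v) := by
        rw [Units.val_mul, ← Matrix.mulVec_mulVec]
      rw [this, h2, ← h1, Matrix.mulVec_mulVec, ← Units.val_mul, inv_mul_cancel, Units.val_one,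
        Matrix.one_mulVec]
    have hdet1 : (g⁻¹ * h).1.det = 1 := by
      rw [Units.val_mul, Matrix.det_mul, ← hdet, ← Matrix.det_mul, ← Units.val_mul,
        inv_mul_cancel, Units.val_one, Matrix.det_one]
    have hmem : g⁻¹ * h ∈ G := G.mul_mem (G.inv_mem hg.1) hh.1
    have := eq_one_of_fix_of_det_one hm (hpow _ hmem) hv0 hfix hdet1
    exact (inv_mul_eq_one.mp this)
  calc S.ncard ≤ (P.roots.toFinset : Set k).ncard :=
        Set.ncard_le_ncard_of_injOn ev hmaps hinj (Finset.finite_toSet _)
    _ = P.roots.toFinset.card := Set.ncard_coe_finset _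
    _ ≤ P.roots.card := Multiset.toFinset_card_le _
    _ ≤ P.natDegree := Polynomial.card_roots' _
    _ = 2 := by rw [hP]; simp [Matrix.charpoly_natDegree_eq_dim]

/-- a scalar multiple `z • M` of an invertible matrix with the same characteristic polynomial
has `z = 1` or `z = -1`. -/
theorem scalar_eq_one_or_neg_one {M : Matrix (Fin 2) (Fin 2) k} (hM : M.det ≠ 0) {z : k}
    (h : (z • M).charpoly = M.charpoly) : z = 1 ∨ z = -1 := by
  have hdet := ((charpoly_fin_two_eq_iff _ _).mp h).2
  rw [Matrix.det_smul, Fintype.card_fin] at hdet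
  have : z ^ 2 = 1 := by
    apply mul_right_cancel₀ hM
    rw [hdet, one_mul]
  exact sq_eq_one_iff_of_ne_zero_char_ne_two_or this
  where
    sq_eq_one_iff_of_ne_zero_char_ne_two_or {z : k} (h : z ^ 2 = 1) : z = 1 ∨ z = -1 := by
      have : (z - 1) * (z + 1) = 0 := by linear_combination h
      rcases mul_eq_zero.mp this with h1 | h1
      · left; exact sub_eq_zero.mp h1
      · right; exact eq_neg_of_add_eq_zero_left h1

end Fermat.Agent.DS.N4
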