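/-
S48 (Deligne–Serre) node (N4), group theory.  File 5: finite subgroups of `GL₂(k)` of order prime
to the characteristic, all of whose elements have an eigenvalue in the finite field `k`:
either every fibre of the characteristic polynomial has at most 120 elements, or some line
stabiliser has index `≤ 2` (and on it the fibres have at most 2 elements).   Mathlib only.
-/
import Mathlib
import Fermat.Agent.DS.N4.Klein
import Fermat.Agent.DS.N4.Proj

set_option autoImplicit false

namespace Fermat.Agent.DS.N4

open Matrix Polynomial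
open scoped LinearAlgebra.Projectivization

variable {k : Type*} [Field k]

/-- the elements of `G` having `v` as an eigenvector. -/
def lineStab (G : Subgroup (GL (Fin 2) k)) (v : Fin 2 → k) : Set (GL (Fin 2) k) :=
  {g | g ∈ G ∧ ∃ e : k, g.1 *ᵥ v = e • v}

/-- the elements of `G` with characteristic polynomial `P`. -/
def charpolyFibre (G : Subgroup (GL (Fin 2) k)) (P : k[X]) : Set (GL (Fin 2) k) :=
  {g | g ∈ G ∧ g.1.charpoly = P}

theorem card_stabilizer_eq_ncard_lineStab (G : Subgroup (GL (Fin 2) k)) {v : Fin 2 → k}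
    (hv : v ≠ 0) :
    Nat.card (MulAction.stabilizer G (Projectivization.mk k v hv)) = (lineStab G v).ncard := by
  let f : MulAction.stabilizer G (Projectivization.mk k v hv) → GL (Fin 2) k :=
    fun a => ((a : G) : GL (Fin 2) k)
  have hf : Function.Injective f := fun a b hab => Subtype.ext (Subtype.ext hab)
  have hrange : Set.range f = lineStab G v := by
    ext g
    constructor
    · rintro ⟨a, rfl⟩
      refine ⟨(a : G).2, ?_⟩
      have := a.2
      rw [MulAction.mem_stabilizer_iff] at this
      exact (smul_mk_eq_iff ((a : G) : GL (Fin 2) k) hv).mp this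
    · rintro ⟨hg, he⟩
      refine ⟨⟨⟨g, hg⟩, ?_⟩, rfl⟩
      rw [MulAction.mem_stabilizer_iff]
      exact (smul_mk_eq_iff g hv).mpr he
  rw [← Nat.card_range_of_injective hf, hrange, Nat.card_coe_set_eq]

/-- fibres of the characteristic polynomial over a coset of a subgroup of scalars. -/
theorem card_fibre_le_two_mul_index [Finite k] (G : Subgroup (GL (Fin 2) k)) (Z : Subgroup G)
    (hZ : ∀ z ∈ Z, ∃ c : k, ((z : G) : GL (Fin 2) k).1 = c • (1 : Matrix (Fin 2) (Fin 2) k))
    (P : k[X]) : (charpolyFibre G P).ncard ≤ 2 * Z.index := by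
  classical
  have := Fintype.ofFinite G
  have := Fintype.ofFinite (G ⧸ Z)
  set S : Finset G := Finset.univ.filter fun g => ((g : GL (Fin 2) k).1.charpoly = P) with hS
  have hcard : (charpolyFibre G P).ncard = S.card := by
    have : charpolyFibre G P = (fun g : G => (g : GL (Fin 2) k)) '' (S : Set G) := by
      ext g
      simp only [charpolyFibre, Set.mem_ofPred_eq, hS, Finset.coe_filter, Finset.mem_univ, true_and,
        Set.mem_image, Subtype.exists, exists_and_right, exists_eq_right]
      constructor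
      · rintro ⟨h1, h2⟩; exact ⟨h1, h2⟩
      · rintro ⟨h1, h2⟩; exact ⟨h1, h2⟩
    rw [this, Set.InjOn.ncard_image (Subtype.val_injective.injOn), Set.ncard_coe_finset]
  rw [hcard]
  let q : G → G ⧸ Z := fun g => QuotientGroup.mk g
  have hfib : ∀ b ∈ S.image q, (S.filter fun g => q g = b).card ≤ 2 := by
    intro b hb
    obtain ⟨g0, hg0, rfl⟩ := Finset.mem_image.mp hb
    have hg0P : (g0 : GL (Fin 2) k).1.charpoly = P := (Finset.mem_filter.mp hg0).2
    have hdet0 : (g0 : GL (Fin 2) k).1.det ≠ 0 := by
      have := (Matrix.isUnit_iff_isUnit_det _).mp ((g0 : GL (Fin 2) k).isUnit)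
      exact this.ne_zero
    let T : Finset (Matrix (Fin 2) (Fin 2) k) :=
      {(g0 : GL (Fin 2) k).1, -(g0 : GL (Fin 2) k).1}
    refine le_trans (Finset.card_le_card_of_injOn (t := T)
      (fun h : G => (h : GL (Fin 2) k).1) ?_ ?_) Finset.card_le_two
    · intro h hh
      simp only [Finset.coe_filter, Set.mem_ofPred_eq] at hh
      obtain ⟨hhS, hq⟩ := hh
      have hhP : (h : GL (Fin 2) k).1.charpoly = P := (Finset.mem_filter.mp hhS).2
      have hz : g0⁻¹ * h ∈ Z := QuotientGroup.eq.mp hq.symm
      obtain ⟨c, hc⟩ := hZ _ hz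
      have hh1 : (h : GL (Fin 2) k).1 = c • (g0 : GL (Fin 2) k).1 := by
        have h1 : (h : GL (Fin 2) k) = (g0 : GL (Fin 2) k) * ((g0⁻¹ * h : G) : GL (Fin 2) k) := by
          push_cast
          rw [mul_inv_cancel_left]
        rw [h1, Units.val_mul, hc, Matrix.mul_smul, Matrix.mul_one]
      have hcp : (c • (g0 : GL (Fin 2) k).1).charpoly = (g0 : GL (Fin 2) k).1.charpoly := by
        rw [← hh1, hhP, hg0P]
      simp only [T, Finset.coe_insert, Finset.coe_singleton, Set.mem_insert_iff,
        Set.mem_singleton_iff]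
      rcases scalar_eq_one_or_neg_one hdet0 hcp with rfl | rfl
      · left; rw [hh1, one_smul]
      · right; rw [hh1, neg_smul, one_smul]
    · intro h _ h' _ heq
      exact Subtype.ext (Units.ext heq)
  refine le_trans (Finset.card_le_mul_card_image S 2 hfib) ?_
  apply Nat.mul_le_mul_left
  rw [Subgroup.index_eq_card, Nat.card_eq_fintype_card]
  exact Finset.card_le_univ _

/-- **Dichotomy in order prime to the characteristic.** -/
theorem primeToChar_dichotomy [Finite k] (p : ℕ) [CharP k p] (G : Subgroup (GL (Fin 2) k))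
    (hp : ¬ p ∣ Nat.card G) (hroot : ∀ g ∈ G, ∃ c : k, g.1.charpoly.IsRoot c) :
    (∀ P : k[X], (charpolyFibre G P).ncard ≤ 120) ∨
    ∃ v : Fin 2 → k, v ≠ 0 ∧ Nat.card G ≤ 2 * (lineStab G v).ncard ∧
      ∀ P : k[X], (lineStab G v ∩ charpolyFibre G P).ncard ≤ 2 := by
  classical
  obtain ⟨m, hm_def⟩ : ∃ m : ℕ, m = Nat.card G := ⟨_, rfl⟩
  have hm : (m : k) ≠ 0 := by
    rw [Ne, CharP.cast_eq_zero_iff k p, hm_def]
    exact hp
  have hpow : ∀ g ∈ G, g ^ m = 1 := by
    intro g hg
    have : (⟨g, hg⟩ : G) ^ m = 1 := by rw [hm_def]; exact pow_card_eq_one'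
    exact congrArg (fun a : G => (a : GL (Fin 2) k)) this
  have h2 : ∀ g : G, (∃ x : ℙ k (Fin 2 → k), g • x ≠ x) →
      (MulAction.fixedBy (ℙ k (Fin 2 → k)) g).ncard = 2 := by
    intro g ⟨x, hx⟩
    have hfix : MulAction.fixedBy (ℙ k (Fin 2 → k)) g =
        MulAction.fixedBy (ℙ k (Fin 2 → k)) (g : GL (Fin 2) k) := by
      ext y
      simp only [MulAction.mem_fixedBy]
      rfl
    rw [hfix]
    apply fixedBy_ncard_eq_two hm (hpow _ g.2) _ (hroot _ g.2)
    intro c hc
    exact hx (smul_eq_self_of_scalar (g : GL (Fin 2) k) hc x)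
  rcases klein_general h2 with h | ⟨x, hx⟩
  · left
    intro P
    have hZ : ∀ z ∈ (MulAction.toPermHom G (ℙ k (Fin 2 → k))).ker,
        ∃ c : k, ((z : G) : GL (Fin 2) k).1 = c • (1 : Matrix (Fin 2) (Fin 2) k) := by
      intro z hz
      apply scalar_of_forall_smul_eq
      intro y
      rw [MonoidHom.mem_ker] at hz
      have := congrArg (fun σ : Equiv.Perm (ℙ k (Fin 2 → k)) => σ y) hz
      simp only [MulAction.toPermHom_apply, MulAction.toPerm_apply, Equiv.Perm.coe_one,
        id_eq] at this
      exact this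
    have := card_fibre_le_two_mul_index G _ hZ P
    omega
  · right
    induction x using Projectivization.ind with
    | h v hv =>
      refine ⟨v, hv, ?_, ?_⟩
      · rw [← card_stabilizer_eq_ncard_lineStab G hv]
        have := Subgroup.card_mul_index (MulAction.stabilizer G (Projectivization.mk k v hv))
        rw [← this]
        rw [mul_comm 2]
        exact Nat.mul_le_mul_left _ hx
      · intro P
        have : lineStab G v ∩ charpolyFibre G P =
            {g : GL (Fin 2) k | g ∈ G ∧ (∃ e : k, g.1 *ᵥ v = e • v) ∧ g.1.charpoly = P} := by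
          ext g
          simp only [lineStab, charpolyFibre, Set.mem_inter_iff, Set.mem_ofPred_eq]
          tauto
        rw [this]
        exact ncard_charpoly_fibre_lineStab_le_two G hm hpow hv P

end Fermat.Agent.DS.N4
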