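/-
S48 (Deligne–Serre) node (N4), group theory.  File 6: a semisimple subgroup `G` of `GL₂(K)`,
`K` a finite field of characteristic `ℓ`, containing an element of order `ℓ`: every fibre of the
characteristic polynomial on `G` has at most `2|G|/ℓ` elements.   Mathlib only.

Proof: `u = 1 + N`, `N² = 0`, `v` spanning `ker N`.  The stabiliser `B` of the line `Kv` in `G`
has `ℓ|B| ≤ |G|` (the cosets `uⁱ g₁ B` are disjoint, `g₁` moving the line), and outside `B` the
traces of `uⁱ g`, `0 ≤ i < ℓ`, are pairwise distinct.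
-/
import Mathlib
import Fermat.Agent.DS.N4.PrimeTo

set_option autoImplicit false

namespace Fermat.Agent.DS.N4

open Matrix Polynomial

variable {K : Type*} [Field K]

/-- semisimplicity of a subgroup of `GL₂(K)` acting on the plane, in elementary form: a common
eigenvector has an independent common eigenvector. -/
def IsSemisimpleGL2 (G : Subgroup (GL (Fin 2) K)) : Prop :=
  ∀ v : Fin 2 → K, v ≠ 0 → (∀ g ∈ G, ∃ c : K, g.1 *ᵥ v = c • v) →
    ∃ w : Fin 2 → K, det2 v w ≠ 0 ∧ ∀ g ∈ G, ∃ c : K, g.1 *ᵥ w = c • w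

/-- the data of a nontrivial unipotent element. -/
structure UnipData (u : GL (Fin 2) K) (N : Matrix (Fin 2) (Fin 2) K) (v : Fin 2 → K) : Prop where
  hu : u.1 = 1 + N
  hN2 : N * N = 0
  hN0 : N ≠ 0
  hv0 : v ≠ 0
  hNv : N *ᵥ v = 0

namespace UnipData

variable {u : GL (Fin 2) K} {N : Matrix (Fin 2) (Fin 2) K} {v : Fin 2 → K}

theorem pow_val (h : UnipData u N v) (i : ℕ) : (u ^ i).1 = 1 + (i : K) • N := by
  rw [Units.val_pow_eq_pow_val, h.hu, one_add_pow_of_sq_zero h.hN2]

/-- the kernel of `N` is the line through `v`. -/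
theorem det2_eq_zero_of_mulVec_eq_zero (h : UnipData u N v) {w : Fin 2 → K} (hw : N *ᵥ w = 0) :
    det2 v w = 0 := by
  by_contra hne
  apply h.hN0
  have := eq_smul_one_of_two_eigvec (c := 0) hne (by rw [h.hNv, zero_smul]) (by rw [hw, zero_smul])
  rw [this, zero_smul]

/-- the image of `N` is the line through `v`. -/
theorem exists_mulVec_eq_smul (h : UnipData u N v) (w : Fin 2 → K) : ∃ γ : K, N *ᵥ w = γ • v := by
  apply exists_smul_of_det2_eq_zero h.hv0
  apply h.det2_eq_zero_of_mulVec_eq_zero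
  rw [Matrix.mulVec_mulVec, h.hN2, Matrix.zero_mulVec]

theorem mulVec_ne_zero_of_det2_ne_zero (h : UnipData u N v) {w : Fin 2 → K} (hw : det2 v w ≠ 0) :
    N *ᵥ w ≠ 0 := fun h0 => hw (h.det2_eq_zero_of_mulVec_eq_zero h0)

/-- some vector is not killed by `N`. -/
theorem exists_mulVec_ne_zero (h : UnipData u N v) : ∃ w : Fin 2 → K, N *ᵥ w ≠ 0 := by
  by_contra hall
  push Not at hall
  apply h.hN0
  ext i j
  have := congrFun (hall (Pi.single j 1)) i
  simpa using this

/-- an element moving the line `Kv` has `tr(N g) ≠ 0`. -/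
theorem trace_mul_ne_zero (h : UnipData u N v) {g : Matrix (Fin 2) (Fin 2) K}
    (hg : det2 v (g *ᵥ v) ≠ 0) : (N * g).trace ≠ 0 := by
  intro htr
  have hNgN : N * g * N = 0 := by
    rw [mul_mul_eq_trace_smul (det_eq_zero_of_sq_zero h.hN2), htr, zero_smul]
  obtain ⟨w, hw⟩ := h.exists_mulVec_ne_zero
  obtain ⟨γ, hγ⟩ := h.exists_mulVec_eq_smul w
  have hγ0 : γ ≠ 0 := by
    rintro rfl
    rw [zero_smul] at hγ
    exact hw hγ
  have h1 : (N * g * N) *ᵥ w = γ • (N *ᵥ (g *ᵥ v)) := by
    rw [← Matrix.mulVec_mulVec, hγ, Matrix.mulVec_smul, ← Matrix.mulVec_mulVec]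
  rw [hNgN, Matrix.zero_mulVec] at h1
  have h2 : N *ᵥ (g *ᵥ v) = 0 := by
    rcases smul_eq_zero.mp h1.symm with h3 | h3
    · exact absurd h3 hγ0
    · exact h3
  exact hg (h.det2_eq_zero_of_mulVec_eq_zero h2)

/-- in a semisimple group containing `u`, some element moves the line `Kv`. -/
theorem exists_moving (h : UnipData u N v) {G : Subgroup (GL (Fin 2) K)} (hu : u ∈ G)
    (hss : IsSemisimpleGL2 G) : ∃ g ∈ G, det2 v (g.1 *ᵥ v) ≠ 0 := by
  by_contra hall
  push Not at hall
  have hcommon : ∀ g ∈ G, ∃ c : K, g.1 *ᵥ v = c • v := fun g hg =>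
    exists_smul_of_det2_eq_zero h.hv0 (hall g hg)
  obtain ⟨w, hw, hwG⟩ := hss v h.hv0 hcommon
  obtain ⟨c, hc⟩ := hwG u hu
  have hNw : N *ᵥ w = (c - 1) • w := by
    have : u.1 *ᵥ w = w + N *ᵥ w := by rw [h.hu, Matrix.add_mulVec, Matrix.one_mulVec]
    rw [this] at hc
    rw [sub_smul, one_smul, ← hc]
    abel
  have hNNw : (c - 1) • ((c - 1) • w) = 0 := by
    rw [← hNw, ← Matrix.mulVec_smul, ← hNw, Matrix.mulVec_mulVec, h.hN2, Matrix.zero_mulVec]
  have hw0 : w ≠ 0 := ne_zero_of_det2_ne_zero_right hw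
  have hc1 : c - 1 = 0 := by
    rcases smul_eq_zero.mp hNNw with h1 | h1
    · exact h1
    · rcases smul_eq_zero.mp h1 with h2 | h2
      · exact h2
      · exact absurd h2 hw0
  rw [hc1, zero_smul] at hNw
  exact hw (h.det2_eq_zero_of_mulVec_eq_zero hNw)

end UnipData

/-- an element of order `ℓ` in characteristic `ℓ` is unipotent with a fixed line. -/
theorem exists_unipData (ℓ : ℕ) [Fact ℓ.Prime] [CharP K ℓ] {u : GL (Fin 2) K}
    (hu : orderOf u = ℓ) : ∃ N v, UnipData u N v := by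
  have hℓ : ℓ.Prime := Fact.out
  have hu1 : u ≠ 1 := by
    intro h
    rw [← orderOf_eq_one_iff, hu] at h
    exact hℓ.one_lt.ne' h
  have hpow : u.1 ^ ℓ = 1 := by
    have := pow_orderOf_eq_one u
    rw [hu] at this
    rw [← Units.val_pow_eq_pow_val, this, Units.val_one]
  set N : Matrix (Fin 2) (Fin 2) K := u.1 - 1 with hN
  have hNpow : N ^ ℓ = 0 := by
    rw [hN, sub_pow_char_of_commute ℓ (Commute.one_right _), hpow, one_pow, sub_self]
  have hN2 : N * N = 0 := sq_zero_of_pow_eq_zero hNpow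
  have hN0 : N ≠ 0 := by
    intro h0
    apply hu1
    apply Units.ext
    rw [Units.val_one]
    exact sub_eq_zero.mp h0
  obtain ⟨v, hv0, hv⟩ := Matrix.exists_mulVec_eq_zero_iff.mpr (det_eq_zero_of_sq_zero hN2)
  exact ⟨N, v, ⟨by rw [hN]; abel, hN2, hN0, hv0, hv⟩⟩

/-- **Fibre bound in the presence of an element of order `ℓ`.** -/
theorem fibre_bound_of_orderOf_eq [Finite K] (ℓ : ℕ) [Fact ℓ.Prime] [CharP K ℓ]
    (G : Subgroup (GL (Fin 2) K)) (hss : IsSemisimpleGL2 G) {u : GL (Fin 2) K} (huG : u ∈ G)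
    (hu : orderOf u = ℓ) (P : K[X]) :
    ℓ * (charpolyFibre G P).ncard ≤ 2 * Nat.card G := by
  classical
  obtain ⟨N, v, h⟩ := exists_unipData ℓ hu
  obtain ⟨g₁, hg₁G, hg₁⟩ := h.exists_moving huG hss
  have hcastinj : ∀ i ∈ (Finset.range ℓ : Set ℕ), ∀ j ∈ (Finset.range ℓ : Set ℕ),
      (i : K) = (j : K) → i = j := by
    intro i hi j hj hij
    rw [Finset.coe_range, Set.mem_Iio] at hi hj
    exact ((CharP.natCast_eq_natCast K ℓ).mp hij).eq_of_lt_of_lt hi hj
  have hGcard : (G : Set (GL (Fin 2) K)).ncard = Nat.card G := by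
    rw [← Nat.card_coe_set_eq]
    rfl
  have hrange : ((Finset.range ℓ : Finset ℕ) : Set ℕ).ncard = ℓ := by
    rw [Set.ncard_coe_finset, Finset.card_range]
  -- the line stabiliser is small
  have hB : ℓ * (lineStab G v).ncard ≤ Nat.card G := by
    rw [← hGcard, mul_comm, ← hrange, ← Set.ncard_prod]
    refine Set.ncard_le_ncard_of_injOn (fun x : GL (Fin 2) K × ℕ => u ^ x.2 * g₁ * x.1) ?_ ?_
      (Set.toFinite _)
    · rintro ⟨b, i⟩ ⟨hb, -⟩
      exact G.mul_mem (G.mul_mem (G.pow_mem huG _) hg₁G) hb.1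
    · rintro ⟨b, i⟩ ⟨hb, hi⟩ ⟨b', j⟩ ⟨hb', hj⟩ heq
      simp only at heq hi hj
      obtain ⟨β, hβ⟩ := hb.2
      obtain ⟨β', hβ'⟩ := hb'.2
      set w := g₁.1 *ᵥ v with hw
      obtain ⟨γ, hγ⟩ := h.exists_mulVec_eq_smul w
      have hγ0 : γ ≠ 0 := by
        rintro rfl
        rw [zero_smul] at hγ
        exact h.mulVec_ne_zero_of_det2_ne_zero hg₁ hγ
      have key : ∀ (b : GL (Fin 2) K) (β : K) (i : ℕ), b.1 *ᵥ v = β • v →
          (u ^ i * g₁ * b).1 *ᵥ v = (β * (i : K) * γ) • v + β • w := by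
        intro b β i hb
        rw [Units.val_mul, Units.val_mul, ← Matrix.mulVec_mulVec, hb, Matrix.mulVec_smul,
          ← Matrix.mulVec_mulVec, ← hw, h.pow_val, Matrix.add_mulVec, Matrix.one_mulVec,
          Matrix.smul_mulVec, hγ, smul_add, smul_smul, smul_smul, add_comm]
      have h1 := key b β i hβ
      have h2 := key b' β' j hβ'
      rw [heq] at h1
      rw [h1] at h2
      obtain ⟨e1, e2⟩ := coeff_eq_of_det2_ne_zero hg₁ h2
      have hβ0 : β ≠ 0 := by
        rintro rfl
        rw [zero_smul] at hβ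
        have : v = 0 := by
          have := congrArg (fun x => (b⁻¹).1 *ᵥ x) hβ
          simp only [Matrix.mulVec_mulVec, Matrix.mulVec_zero] at this
          rw [← Units.val_mul, inv_mul_cancel, Units.val_one, Matrix.one_mulVec] at this
          exact this
        exact h.hv0 this
      rw [← e2] at e1
      have hij : (i : K) = (j : K) := by
        have := mul_right_cancel₀ hγ0 e1
        exact mul_left_cancel₀ hβ0 this
      have hij' : i = j := hcastinj i hi j hj hij
      subst hij'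
      have hbb : b = b' := mul_left_cancel heq
      rw [hbb]
  -- outside the line stabiliser the traces separate
  have hC : ℓ * (charpolyFibre G P \ lineStab G v).ncard ≤ Nat.card G := by
    rw [← hGcard, mul_comm, ← hrange, ← Set.ncard_prod]
    refine Set.ncard_le_ncard_of_injOn (fun x : GL (Fin 2) K × ℕ => u ^ x.2 * x.1) ?_ ?_
      (Set.toFinite _)
    · rintro ⟨g, i⟩ ⟨hg, -⟩
      exact G.mul_mem (G.pow_mem huG _) hg.1.1
    · rintro ⟨g, i⟩ ⟨hg, hi⟩ ⟨g', j⟩ ⟨hg', hj⟩ heq
      simp only at heq hi hj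
      have hmove : ∀ g : GL (Fin 2) K, g ∈ charpolyFibre G P \ lineStab G v →
          det2 v (g.1 *ᵥ v) ≠ 0 := by
        intro g hg h0
        apply hg.2
        exact ⟨hg.1.1, exists_smul_of_det2_eq_zero h.hv0 h0⟩
      have hval : ∀ (g : GL (Fin 2) K) (i : ℕ), (u ^ i * g).1 = g.1 + (i : K) • (N * g.1) := by
        intro g i
        rw [Units.val_mul, h.pow_val, add_mul, one_mul, Matrix.smul_mul]
      have htr : ∀ (g : GL (Fin 2) K) (i : ℕ),
          (u ^ i * g).1.trace = g.1.trace + (i : K) * (N * g.1).trace := by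
        intro g i
        rw [hval, Matrix.trace_add, Matrix.trace_smul, smul_eq_mul]
      have hτ : ∀ (g : GL (Fin 2) K) (i : ℕ), (N * (u ^ i * g).1).trace = (N * g.1).trace := by
        intro g i
        rw [hval, mul_add, Matrix.mul_smul, ← mul_assoc, h.hN2, zero_mul, smul_zero, add_zero]
      have hτeq : (N * g.1).trace = (N * g'.1).trace := by
        rw [← hτ g i, ← hτ g' j, heq]
      have hτ0 : (N * g.1).trace ≠ 0 := h.trace_mul_ne_zero (hmove g hg)
      have htrgg' : g.1.trace = g'.1.trace := by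
        have : g.1.charpoly = g'.1.charpoly := by rw [hg.1.2, hg'.1.2]
        exact ((charpoly_fin_two_eq_iff _ _).mp this).1
      have h3 : g.1.trace + (i : K) * (N * g.1).trace = g'.1.trace + (j : K) * (N * g'.1).trace := by
        rw [← htr, ← htr, heq]
      rw [← hτeq, ← htrgg'] at h3
      have hij : (i : K) = (j : K) := mul_right_cancel₀ hτ0 (add_left_cancel h3)
      have hij' : i = j := hcastinj i hi j hj hij
      subst hij'
      have hgg : g = g' := mul_left_cancel heq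
      rw [hgg]
  have hsub : charpolyFibre G P ⊆ lineStab G v ∪ (charpolyFibre G P \ lineStab G v) := by
    intro g hg
    by_cases hgB : g ∈ lineStab G v
    · exact Or.inl hgB
    · exact Or.inr ⟨hg, hgB⟩
  have h1 : (charpolyFibre G P).ncard ≤
      (lineStab G v).ncard + (charpolyFibre G P \ lineStab G v).ncard :=
    le_trans (Set.ncard_le_ncard hsub (Set.toFinite _)) (Set.ncard_union_le _ _)
  calc ℓ * (charpolyFibre G P).ncard
      ≤ ℓ * ((lineStab G v).ncard + (charpolyFibre G P \ lineStab G v).ncard) :=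
        Nat.mul_le_mul_left _ h1
    _ = ℓ * (lineStab G v).ncard + ℓ * (charpolyFibre G P \ lineStab G v).ncard := by ring
    _ ≤ Nat.card G + Nat.card G := Nat.add_le_add hB hC
    _ = 2 * Nat.card G := by ring

end Fermat.Agent.DS.N4
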