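/-
S48 (Deligne–Serre) node (N4), group theory.  File 7: the bound of Deligne–Serre, Prop. 7.2.
`grp_gate`: `K` ANY finite field of characteristic `ℓ`, `G ≤ GL₂(K)` semisimple, `H ⊆ G` of
proportion `≥ 1 - η`, `η < 1/2`, with at most `M` characteristic polynomials
  ⟹  `ℓ ≤ 4M`  or  `(1 - 2η)|G| ≤ 120 M`.
Over the prime field also the absolute form `|G| ≤ max (120 M / (1 - 2η)) ((4M)⁴)`.
No Dickson classification: order divisible by `ℓ` is handled by `Unipotent.lean` (trace separation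
on `⟨u⟩`-cosets), order prime to `ℓ` by Klein's fixed-point count on the projective line over a
finite splitting field.   Mathlib only.
-/
import Mathlib
import Fermat.Agent.DS.N4.Unipotent

set_option autoImplicit false

namespace Fermat.Agent.DS.N4

open Matrix Polynomial

/-! ### a counting lemma -/

/-- if the fibres of `f` on `H` have at most `c` elements, then `|H| ≤ c · |f(H)|`. -/
theorem ncard_le_mul_ncard_image {α β : Type*} {H : Set α} (hH : H.Finite) (f : α → β) (c : ℕ)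
    (hfib : ∀ b : β, (H ∩ f ⁻¹' {b}).ncard ≤ c) : H.ncard ≤ c * (f '' H).ncard := by
  classical
  have h1 : H.ncard = hH.toFinset.card := Set.ncard_eq_toFinset_card H hH
  have h2 : (f '' H).ncard = (hH.toFinset.image f).card := by
    rw [← Set.ncard_coe_finset, Finset.coe_image, Set.Finite.coe_toFinset]
  rw [h1, h2]
  apply Finset.card_le_mul_card_image
  intro b _
  have : ((hH.toFinset.filter fun a => f a = b : Finset α) : Set α) = H ∩ f ⁻¹' {b} := by
    ext a
    simp
  rw [← Set.ncard_coe_finset, this]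
  exact hfib b

/-! ### extension of scalars -/

section transfer

variable {K k : Type*} [Field K] [Field k] [Algebra K k]

/-- extension of scalars on `GL₂`. -/
noncomputable def extGL (K k : Type*) [Field K] [Field k] [Algebra K k] :
    GL (Fin 2) K →* GL (Fin 2) k :=
  Matrix.GeneralLinearGroup.map (algebraMap K k)

theorem extGL_val (g : GL (Fin 2) K) : (extGL K k g).1 = g.1.map (algebraMap K k) := rfl

theorem extGL_injective : Function.Injective (extGL K k) := by
  intro g h hgh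
  apply Units.ext
  have := congrArg Units.val hgh
  rw [extGL_val, extGL_val] at this
  exact Matrix.map_injective (algebraMap K k).injective this

theorem charpoly_extGL (g : GL (Fin 2) K) :
    (extGL K k g).1.charpoly = g.1.charpoly.map (algebraMap K k) := by
  rw [extGL_val, Matrix.charpoly_map]

end transfer

/-- **Dichotomy in order prime to the characteristic**, over an arbitrary finite field (the
eigenvalues are found in a finite extension). -/
theorem dichotomy_of_not_dvd {K : Type*} [Field K] [Finite K] (p : ℕ) [CharP K p]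
    (G : Subgroup (GL (Fin 2) K)) (hp : ¬ p ∣ Nat.card G) :
    (∀ P : K[X], (charpolyFibre G P).ncard ≤ 120) ∨
    ∃ B : Set (GL (Fin 2) K), B ⊆ G ∧ Nat.card G ≤ 2 * B.ncard ∧
      ∀ P : K[X], (B ∩ charpolyFibre G P).ncard ≤ 2 := by
  classical
  have := Fintype.ofFinite (GL (Fin 2) K)
  set f : K[X] := ∏ g : GL (Fin 2) K, g.1.charpoly with hf
  have hf0 : f ≠ 0 := by
    rw [hf]
    exact Finset.prod_ne_zero_iff.mpr fun g _ => (Matrix.charpoly_monic _).ne_zero
  let k := f.SplittingField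
  have hsplit : (f.map (algebraMap K k)).Splits := Polynomial.SplittingField.splits f
  have : CharP k p := charP_of_injective_algebraMap (algebraMap K k).injective p
  set G' : Subgroup (GL (Fin 2) k) := G.map (extGL K k) with hG'
  have hcard : Nat.card G' = Nat.card G := Subgroup.card_map_of_injective extGL_injective
  have hmem : ∀ g : GL (Fin 2) K, extGL K k g ∈ G' ↔ g ∈ G := by
    intro g
    rw [hG', Subgroup.mem_map]
    constructor
    · rintro ⟨h, hh, heq⟩
      rw [← extGL_injective heq]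
      exact hh
    · intro hg
      exact ⟨g, hg, rfl⟩
  have hroot : ∀ g' ∈ G', ∃ c : k, g'.1.charpoly.IsRoot c := by
    intro g' hg'
    obtain ⟨g, _, rfl⟩ := Subgroup.mem_map.mp hg'
    rw [charpoly_extGL]
    have hdvd : g.1.charpoly.map (algebraMap K k) ∣ f.map (algebraMap K k) :=
      Polynomial.map_dvd _ (Finset.dvd_prod_of_mem _ (Finset.mem_univ g))
    have hs := hsplit.of_dvd (Polynomial.map_ne_zero hf0) hdvd
    have hdeg : (g.1.charpoly.map (algebraMap K k)).degree ≠ 0 := by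
      rw [Polynomial.degree_map, Matrix.charpoly_degree_eq_dim]
      simp
    exact hs.exists_eval_eq_zero hdeg
  have hfib : ∀ (B : Set (GL (Fin 2) K)) (B' : Set (GL (Fin 2) k)) (P : K[X]),
      (∀ g ∈ B, extGL K k g ∈ B') →
      (B ∩ charpolyFibre G P).ncard ≤ (B' ∩ charpolyFibre G' (P.map (algebraMap K k))).ncard := by
    intro B B' P hBB'
    refine Set.ncard_le_ncard_of_injOn (extGL K k) ?_ (extGL_injective.injOn) (Set.toFinite _)
    rintro g ⟨hgB, hgG, hgP⟩
    refine ⟨hBB' g hgB, (hmem g).mpr hgG, ?_⟩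
    rw [charpoly_extGL, hgP]
  rcases primeToChar_dichotomy p G' (by rw [hcard]; exact hp) hroot with h | ⟨v, hv0, hidx, hv⟩
  · left
    intro P
    have := hfib Set.univ Set.univ P (fun _ _ => Set.mem_univ _)
    rw [Set.univ_inter, Set.univ_inter] at this
    exact le_trans this (h _)
  · right
    refine ⟨{g | g ∈ G ∧ extGL K k g ∈ lineStab G' v}, fun g hg => hg.1, ?_, ?_⟩
    · have himage : lineStab G' v = extGL K k '' {g | g ∈ G ∧ extGL K k g ∈ lineStab G' v} := by
        ext g'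
        constructor
        · intro hg'
          obtain ⟨g, hg, rfl⟩ := Subgroup.mem_map.mp hg'.1
          exact ⟨g, ⟨hg, hg'⟩, rfl⟩
        · rintro ⟨g, ⟨_, hg⟩, rfl⟩
          exact hg
      rw [← hcard, ← Set.InjOn.ncard_image ((extGL_injective (K := K) (k := k)).injOn), ← himage]
      exact hidx
    · intro P
      exact le_trans (hfib _ (lineStab G' v) P fun g hg => hg.2) (hv _)

/-- **Deligne–Serre, Prop. 7.2, dichotomy form over any finite field of characteristic `ℓ`.**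
Let `G ≤ GL₂(K)` be semisimple, `H ⊆ G` with `(1 - η)|G| ≤ |H|` for some `0 ≤ η < 1/2`, and
suppose the elements of `H` have at most `M` distinct characteristic polynomials.  Then
`ℓ ≤ 4M` or `(1 - 2η)|G| ≤ 120 M`.  (So for `ℓ > 4M` the order of `G` is bounded in terms of
`η` and `M` alone, whatever the finite field `K`.) -/
theorem grp_gate {K : Type*} [Field K] [Finite K] (ℓ : ℕ) [Fact ℓ.Prime] [CharP K ℓ]
    (G : Subgroup (GL (Fin 2) K))
    (hss : IsSemisimpleGL2 G) (H : Set (GL (Fin 2) K)) (hHG : H ⊆ G) (M : ℕ)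
    (hM : ((fun g : GL (Fin 2) K => g.1.charpoly) '' H).ncard ≤ M)
    (η : ℝ) (hη0 : 0 ≤ η) (hη : η < 1 / 2) (hH : (1 - η) * (Nat.card G : ℝ) ≤ (H.ncard : ℝ)) :
    ℓ ≤ 4 * M ∨ (1 - 2 * η) * (Nat.card G : ℝ) ≤ 120 * (M : ℝ) := by
  classical
  have hℓ : ℓ.Prime := Fact.out
  have hGpos : 0 < Nat.card G := Nat.card_pos
  have hGposR : (0 : ℝ) < (Nat.card G : ℝ) := by exact_mod_cast hGpos
  -- `|H ∩ B| ≤ c M` when the fibres on `B` have at most `c` elements
  have hcount : ∀ (B : Set (GL (Fin 2) K)) (c : ℕ),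
      (∀ P : K[X], (B ∩ charpolyFibre G P).ncard ≤ c) → (H ∩ B).ncard ≤ c * M := by
    intro B c hB
    have h1 := ncard_le_mul_ncard_image (H := H ∩ B) (Set.toFinite _)
      (fun g : GL (Fin 2) K => g.1.charpoly) c (by
        intro P
        refine le_trans (Set.ncard_le_ncard ?_ (Set.toFinite _)) (hB P)
        rintro g ⟨⟨hgH, hgB⟩, hgP⟩
        exact ⟨hgB, hHG hgH, hgP⟩)
    refine le_trans h1 (Nat.mul_le_mul_left _ (le_trans ?_ hM))
    exact Set.ncard_le_ncard (Set.image_mono Set.inter_subset_left) (Set.toFinite _)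
  by_cases hdvd : ℓ ∣ Nat.card G
  · -- an element of order ℓ
    left
    obtain ⟨x, hx⟩ := exists_prime_orderOf_dvd_card' ℓ hdvd
    have hu : orderOf (x : GL (Fin 2) K) = ℓ := by rw [Subgroup.orderOf_coe, hx]
    have hfib : ∀ P : K[X],
        (Set.univ ∩ charpolyFibre G P).ncard ≤ 2 * Nat.card G / ℓ := by
      intro P
      rw [Set.univ_inter, Nat.le_div_iff_mul_le hℓ.pos, mul_comm]
      exact fibre_bound_of_orderOf_eq ℓ G hss x.2 hu P
    have h1 := hcount Set.univ _ hfib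
    rw [Set.inter_univ] at h1
    have h2 : ℓ * H.ncard ≤ 2 * Nat.card G * M := by
      calc ℓ * H.ncard ≤ ℓ * (2 * Nat.card G / ℓ * M) := Nat.mul_le_mul_left _ h1
        _ = ℓ * (2 * Nat.card G / ℓ) * M := by ring
        _ ≤ 2 * Nat.card G * M := Nat.mul_le_mul_right _ (Nat.mul_div_le _ _)
    have h2R : (ℓ : ℝ) * (H.ncard : ℝ) ≤ 2 * (Nat.card G : ℝ) * (M : ℝ) := by exact_mod_cast h2
    have hℓR : (0 : ℝ) < (ℓ : ℝ) := by exact_mod_cast hℓ.pos
    have h3 : (ℓ : ℝ) * ((1 - η) * (Nat.card G : ℝ)) ≤ 2 * (Nat.card G : ℝ) * (M : ℝ) :=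
      le_trans (mul_le_mul_of_nonneg_left hH hℓR.le) h2R
    have h4 : (ℓ : ℝ) * (1 - η) ≤ 2 * (M : ℝ) := by
      by_contra hlt
      push Not at hlt
      nlinarith
    have h5 : (ℓ : ℝ) ≤ 4 * (M : ℝ) := by nlinarith
    exact_mod_cast h5
  · right
    rcases dichotomy_of_not_dvd ℓ G hdvd with h | ⟨B, hBG, hidx, hB⟩
    · have h1 := hcount Set.univ 120 (fun P => by rw [Set.univ_inter]; exact h P)
      rw [Set.inter_univ] at h1
      have h1R : (H.ncard : ℝ) ≤ 120 * (M : ℝ) := by exact_mod_cast h1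
      nlinarith
    · have h1 := hcount B 2 hB
      -- `|H \ B| ≤ |G| - |B|`
      have hBfin : B.Finite := Set.toFinite _
      have h2 : (H \ B).ncard + B.ncard ≤ Nat.card G := by
        have hdisj : Disjoint (H \ B) B := Set.disjoint_sdiff_left
        rw [← Set.ncard_union_eq hdisj (Set.toFinite _) hBfin]
        have hsub : (H \ B) ∪ B ⊆ (G : Set (GL (Fin 2) K)) := by
          rintro g (hg | hg)
          · exact hHG hg.1
          · exact hBG hg
        have hGcard : (G : Set (GL (Fin 2) K)).ncard = Nat.card G := by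
          rw [← Nat.card_coe_set_eq]
          rfl
        rw [← hGcard]
        exact Set.ncard_le_ncard hsub (Set.toFinite _)
      have h3 : H.ncard ≤ (H ∩ B).ncard + (H \ B).ncard := by
        rw [← Set.ncard_union_eq Set.disjoint_sdiff_inter.symm (Set.toFinite _) (Set.toFinite _)]
        rw [Set.inter_union_sdiff]
      have h4 : 2 * H.ncard ≤ 4 * M + Nat.card G := by omega
      have h4R : 2 * (H.ncard : ℝ) ≤ 4 * (M : ℝ) + (Nat.card G : ℝ) := by exact_mod_cast h4
      have hM0 : (0 : ℝ) ≤ (M : ℝ) := Nat.cast_nonneg M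
      nlinarith

/-- the uniform bound: for `ℓ > 4M` the order of `G` is at most `120 M / (1 - 2η)`. -/
theorem grp_gate_card_le {K : Type*} [Field K] [Finite K] (ℓ : ℕ) [Fact ℓ.Prime] [CharP K ℓ]
    (G : Subgroup (GL (Fin 2) K))
    (hss : IsSemisimpleGL2 G) (H : Set (GL (Fin 2) K)) (hHG : H ⊆ G) (M : ℕ)
    (hM : ((fun g : GL (Fin 2) K => g.1.charpoly) '' H).ncard ≤ M)
    (η : ℝ) (hη0 : 0 ≤ η) (hη : η < 1 / 2) (hH : (1 - η) * (Nat.card G : ℝ) ≤ (H.ncard : ℝ))
    (hℓM : 4 * M < ℓ) : (Nat.card G : ℝ) ≤ 120 * (M : ℝ) / (1 - 2 * η) := by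
  have hpos : (0 : ℝ) < 1 - 2 * η := by linarith
  rcases grp_gate ℓ G hss H hHG M hM η hη0 hη hH with h | h
  · omega
  · rw [le_div_iff₀ hpos]
    linarith

/-- the order of `GL₂(𝔽_ℓ)` is at most `ℓ⁴`. -/
theorem card_GL2_zmod_le (ℓ : ℕ) [Fact ℓ.Prime] : Nat.card (GL (Fin 2) (ZMod ℓ)) ≤ ℓ ^ 4 := by
  have h1 : Nat.card (Matrix (Fin 2) (Fin 2) (ZMod ℓ)) = ℓ ^ 4 := by
    rw [Nat.card_eq_fintype_card]
    show Fintype.card (Fin 2 → Fin 2 → ZMod ℓ) = ℓ ^ 4
    rw [Fintype.card_fun, Fintype.card_fun, ZMod.card, Fintype.card_fin, ← pow_mul]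
  rw [← h1]
  exact Nat.card_le_card_of_injective (fun g : GL (Fin 2) (ZMod ℓ) => g.1) fun g h hgh => Units.ext hgh

/-- **Deligne–Serre, Prop. 7.2 (prime field), absolute form.**  Over `𝔽_ℓ` the order of `G` is
bounded for every `ℓ`:  `(1 - 2η)|G| ≤ 120 M` or `|G| ≤ (4M)⁴`. -/
theorem card_bound_of_few_charpolys (ℓ : ℕ) [Fact ℓ.Prime] (G : Subgroup (GL (Fin 2) (ZMod ℓ)))
    (hss : IsSemisimpleGL2 G) (H : Set (GL (Fin 2) (ZMod ℓ))) (hHG : H ⊆ G) (M : ℕ)
    (hM : ((fun g : GL (Fin 2) (ZMod ℓ) => g.1.charpoly) '' H).ncard ≤ M)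
    (η : ℝ) (hη0 : 0 ≤ η) (hη : η < 1 / 2) (hH : (1 - η) * (Nat.card G : ℝ) ≤ (H.ncard : ℝ)) :
    (1 - 2 * η) * (Nat.card G : ℝ) ≤ 120 * (M : ℝ) ∨ Nat.card G ≤ (4 * M) ^ 4 := by
  rcases grp_gate ℓ G hss H hHG M hM η hη0 hη hH with h | h
  · right
    calc Nat.card G ≤ Nat.card (GL (Fin 2) (ZMod ℓ)) :=
          Nat.card_le_card_of_injective (fun g : G => (g : GL (Fin 2) (ZMod ℓ)))
            Subtype.val_injective
      _ ≤ ℓ ^ 4 := card_GL2_zmod_le ℓ
      _ ≤ (4 * M) ^ 4 := Nat.pow_le_pow_left h 4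
  · left
    exact h

/-- the same bound in `max` form. -/
theorem card_le_max_of_few_charpolys (ℓ : ℕ) [Fact ℓ.Prime] (G : Subgroup (GL (Fin 2) (ZMod ℓ)))
    (hss : IsSemisimpleGL2 G) (H : Set (GL (Fin 2) (ZMod ℓ))) (hHG : H ⊆ G) (M : ℕ)
    (hM : ((fun g : GL (Fin 2) (ZMod ℓ) => g.1.charpoly) '' H).ncard ≤ M)
    (η : ℝ) (hη0 : 0 ≤ η) (hη : η < 1 / 2) (hH : (1 - η) * (Nat.card G : ℝ) ≤ (H.ncard : ℝ)) :
    (Nat.card G : ℝ) ≤ max (120 * (M : ℝ) / (1 - 2 * η)) ((4 * (M : ℝ)) ^ 4) := by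
  have hpos : (0 : ℝ) < 1 - 2 * η := by linarith
  rcases card_bound_of_few_charpolys ℓ G hss H hHG M hM η hη0 hη hH with h | h
  · apply le_max_of_le_left
    rw [le_div_iff₀ hpos]
    linarith
  · apply le_max_of_le_right
    exact_mod_cast h

end Fermat.Agent.DS.N4
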