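/-
S48 (Deligne–Serre) node (N4), group theory.  File 8: producers of the elementary semisimplicity
predicate `IsSemisimpleGL2` consumed by `grp_gate`: (1) no common eigenvector (irreducible),
(2) a group of diagonal matrices, (3) every stable subspace has a stable complement.
Mathlib only.
-/
import Mathlib
import Fermat.Agent.DS.N4.Main

set_option autoImplicit false

namespace Fermat.Agent.DS.N4

open Matrix

variable {K : Type*} [Field K]

/-- two vectors with non-vanishing determinant span the plane. -/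
theorem exists_coeff_of_det2_ne_zero {v w : Fin 2 → K} (h : det2 v w ≠ 0) (x : Fin 2 → K) :
    ∃ a b : K, x = a • v + b • w := by
  refine ⟨det2 x w / det2 v w, det2 v x / det2 v w, ?_⟩
  ext i
  fin_cases i
  · simp only [Fin.zero_eta, Pi.add_apply, Pi.smul_apply, smul_eq_mul]
    field_simp
    simp only [det2]
    ring
  · simp only [Fin.mk_one, Pi.add_apply, Pi.smul_apply, smul_eq_mul]
    field_simp
    simp only [det2]
    ring

/-- some standard basis vector is independent of a given nonzero vector. -/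
theorem exists_det2_ne_zero {v : Fin 2 → K} (hv : v ≠ 0) : ∃ x : Fin 2 → K, det2 v x ≠ 0 := by
  rcases vec2_ne_zero hv with h | h
  · exact ⟨![0, 1], by simpa [det2] using h⟩
  · exact ⟨![1, 0], by simpa [det2] using h⟩

/-- (1) a group without common eigenvector is semisimple (it is irreducible). -/
theorem isSemisimpleGL2_of_no_common_eigvec (G : Subgroup (GL (Fin 2) K))
    (h : ∀ v : Fin 2 → K, v ≠ 0 → ¬ ∀ g ∈ G, ∃ c : K, g.1 *ᵥ v = c • v) : IsSemisimpleGL2 G :=
  fun v hv hcommon => absurd hcommon (h v hv)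

/-- (2) a group of diagonal matrices is semisimple. -/
theorem isSemisimpleGL2_of_diagonal (G : Subgroup (GL (Fin 2) K))
    (h : ∀ g ∈ G, g.1 0 1 = 0 ∧ g.1 1 0 = 0) : IsSemisimpleGL2 G := by
  intro v hv hcommon
  have he : ∀ g ∈ G, g.1 *ᵥ ![1, 0] = g.1 0 0 • ![1, 0] ∧ g.1 *ᵥ ![0, 1] = g.1 1 1 • ![0, 1] := by
    intro g hg
    obtain ⟨h01, h10⟩ := h g hg
    constructor
    · rw [mulVec_fin_two]
      ext i
      fin_cases i <;> simp [h01, h10]
    · rw [mulVec_fin_two]
      ext i
      fin_cases i <;> simp [h01, h10]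
  by_cases h0 : v 0 = 0
  · -- v is a multiple of e₂: take w = e₁
    have h1 : v 1 ≠ 0 := by
      rcases vec2_ne_zero hv with h' | h'
      · exact absurd h0 h'
      · exact h'
    refine ⟨![1, 0], ?_, fun g hg => ⟨_, (he g hg).1⟩⟩
    simp only [det2, Matrix.cons_val_zero, Matrix.cons_val_one]
    rw [h0]
    simpa using h1
  by_cases h1 : v 1 = 0
  · refine ⟨![0, 1], ?_, fun g hg => ⟨_, (he g hg).2⟩⟩
    simp only [det2, Matrix.cons_val_zero, Matrix.cons_val_one]
    rw [h1]
    simpa using h0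
  · -- both coordinates nonzero: every element of `G` is scalar
    have hsc : ∀ g ∈ G, g.1 0 0 = g.1 1 1 := by
      intro g hg
      obtain ⟨c, hc⟩ := hcommon g hg
      obtain ⟨h01, h10⟩ := h g hg
      rw [mulVec_fin_two] at hc
      have hc0 := congrFun hc 0
      have hc1 := congrFun hc 1
      simp only [Matrix.cons_val_zero, Matrix.cons_val_one, Pi.smul_apply, smul_eq_mul, h01, h10,
        zero_mul, add_zero, zero_add] at hc0 hc1
      have e0 : g.1 0 0 = c := mul_right_cancel₀ h0 hc0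
      have e1 : g.1 1 1 = c := mul_right_cancel₀ h1 hc1
      rw [e0, e1]
    refine ⟨![1, 0], ?_, fun g hg => ⟨_, (he g hg).1⟩⟩
    simp only [det2, Matrix.cons_val_zero, Matrix.cons_val_one]
    simpa using h1

/-- (3) complete reducibility in the usual form implies `IsSemisimpleGL2`. -/
theorem isSemisimpleGL2_of_forall_isCompl (G : Subgroup (GL (Fin 2) K))
    (h : ∀ W : Submodule K (Fin 2 → K), (∀ g ∈ G, ∀ x ∈ W, g.1 *ᵥ x ∈ W) →
      ∃ W' : Submodule K (Fin 2 → K), IsCompl W W' ∧ ∀ g ∈ G, ∀ x ∈ W', g.1 *ᵥ x ∈ W') :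
    IsSemisimpleGL2 G := by
  intro v hv hcommon
  have hW : ∀ g ∈ G, ∀ x ∈ Submodule.span K {v}, g.1 *ᵥ x ∈ Submodule.span K {v} := by
    intro g hg x hx
    obtain ⟨a, rfl⟩ := Submodule.mem_span_singleton.mp hx
    obtain ⟨c, hc⟩ := hcommon g hg
    rw [Matrix.mulVec_smul, hc, smul_smul]
    exact Submodule.mem_span_singleton.mpr ⟨a * c, rfl⟩
  obtain ⟨W', hcompl, hW'⟩ := h _ hW
  obtain ⟨x, hx⟩ := exists_det2_ne_zero hv
  have hxtop : x ∈ Submodule.span K {v} ⊔ W' := by
    rw [hcompl.sup_eq_top]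
    exact Submodule.mem_top
  obtain ⟨y, hy, w, hw, hyw⟩ := Submodule.mem_sup.mp hxtop
  obtain ⟨a, rfl⟩ := Submodule.mem_span_singleton.mp hy
  have hdet : det2 v w ≠ 0 := by
    intro h0
    apply hx
    rw [← hyw]
    simp only [det2, Pi.add_apply, Pi.smul_apply, smul_eq_mul] at h0 ⊢
    linear_combination h0
  refine ⟨w, hdet, ?_⟩
  intro g hg
  have hgw : g.1 *ᵥ w ∈ W' := hW' g hg w hw
  obtain ⟨α, β, hαβ⟩ := exists_coeff_of_det2_ne_zero hdet (g.1 *ᵥ w)
  have hαv : α • v ∈ Submodule.span K {v} ⊓ W' := by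
    refine ⟨Submodule.mem_span_singleton.mpr ⟨α, rfl⟩, ?_⟩
    have : α • v = g.1 *ᵥ w - β • w := by rw [hαβ]; abel
    rw [this]
    exact W'.sub_mem hgw (W'.smul_mem β hw)
  rw [hcompl.inf_eq_bot, Submodule.mem_bot] at hαv
  refine ⟨β, ?_⟩
  rw [hαβ, hαv, zero_add]

end Fermat.Agent.DS.N4
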